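import Mathlib
import Fermat.Agent.LT.T7.Spec

/-!
# Row LT, tower T7, seat helper820: places of a Galois number field over `ℚ` (OFF-MAIN)

General lemmas for the leaves T7.08 `MidStableFromUniqueC` and T7.04 `MidStableFromC`
(vocabulary of `T7/Spec.lean` v1.1, helper797@db78af04c):

* `placeMap820 s v` : the image of the finite place `v` under the automorphism `s` of `K`;
  `placeImage_placeMap820`, `placeImage_unique820`;
* `prime_unique820`, `exists_primesBelow820` : a place contains one prime number; the primes below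
  a finite set of places form a finite set;
* `exists_placeImage_of_isGalois820` : for `K/ℚ` Galois the places over `p` are conjugate;
* `isGalois_fieldF820` : `fieldF ρ / ℚ` is Galois (`subSL ρ` is a normal subgroup).
-/

set_option autoImplicit false

open AutomorphicForm
open IsDedekindDomain NumberField

noncomputable section

namespace Fermat.Agent.LT.T7.H820

open Fermat.Agent.LT.H130 Fermat.Agent.LT.H556 Fermat.Agent.LT.T7

local notation "Γℚ" => (AlgebraicClosure ℚ ≃ₐ[ℚ] AlgebraicClosure ℚ)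

section Places

set_option linter.unusedSectionVars false

variable {K : Type} [Field K] [NumberField K]

/-- The image of the finite place `v` under the automorphism `s` of `K`. -/
def placeMap820 (s : K ≃+* K) (v : HeightOneSpectrum (𝓞 K)) : HeightOneSpectrum (𝓞 K) :=
  HeightOneSpectrum.equivOfRingEquiv (RingOfIntegers.mapRingEquiv s) v

theorem mem_placeMap820 (s : K ≃+* K) (v : HeightOneSpectrum (𝓞 K)) (y : 𝓞 K) :
    y ∈ (placeMap820 s v).asIdeal ↔ (RingOfIntegers.mapRingEquiv s).symm y ∈ v.asIdeal :=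
  Iff.rfl

theorem placeImage_placeMap820 (s : K ≃+* K) (v : HeightOneSpectrum (𝓞 K)) :
    PlaceImage s v (placeMap820 s v) := by
  intro x y hxy
  rw [mem_placeMap820]
  have : (RingOfIntegers.mapRingEquiv s).symm y = x := by
    apply RingOfIntegers.ext
    rw [RingOfIntegers.mapRingEquiv_symm_apply, hxy]
    exact s.symm_apply_apply _
  rw [this]

theorem placeImage_unique820 (s : K ≃+* K) (v v' : HeightOneSpectrum (𝓞 K))
    (h : PlaceImage s v v') : v' = placeMap820 s v := by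
  apply HeightOneSpectrum.ext
  ext y
  rw [mem_placeMap820]
  have hy : ((y : 𝓞 K) : K) = s (((RingOfIntegers.mapRingEquiv s).symm y : 𝓞 K) : K) := by
    rw [RingOfIntegers.mapRingEquiv_symm_apply]
    exact (s.apply_symm_apply _).symm
  exact (h _ y hy).symm

/-- A natural number is fixed by every automorphism: `p ∈ v ↔ p ∈ s v`. -/
theorem natCast_mem_of_placeImage820 (s : K ≃+* K) (v v' : HeightOneSpectrum (𝓞 K))
    (h : PlaceImage s v v') (p : ℕ) :
    ((p : ℕ) : 𝓞 K) ∈ v.asIdeal ↔ ((p : ℕ) : 𝓞 K) ∈ v'.asIdeal := by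
  apply h
  simp

/-- Every place is the image of a place. -/
theorem exists_placeImage820 (s : K ≃+* K) (v' : HeightOneSpectrum (𝓞 K)) :
    ∃ v : HeightOneSpectrum (𝓞 K), PlaceImage s v v' := by
  refine ⟨placeMap820 s.symm v', ?_⟩
  intro x y hxy
  rw [mem_placeMap820]
  have : (RingOfIntegers.mapRingEquiv s.symm).symm x = y := by
    apply RingOfIntegers.ext
    rw [RingOfIntegers.mapRingEquiv_symm_apply, hxy]
    rfl
  rw [this]

/-- Two distinct prime numbers do not lie in the same place. -/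
theorem prime_unique820 (v : HeightOneSpectrum (𝓞 K)) {p q : ℕ} (hp : p.Prime) (hq : q.Prime)
    (hpv : ((p : ℕ) : 𝓞 K) ∈ v.asIdeal) (hqv : ((q : ℕ) : 𝓞 K) ∈ v.asIdeal) : p = q := by
  by_contra hne
  have hcop : Nat.Coprime p q := (Nat.coprime_primes hp hq).2 hne
  have hiso : IsCoprime (p : ℤ) (q : ℤ) := Nat.isCoprime_iff_coprime.2 hcop
  obtain ⟨a, b, hab⟩ := hiso
  have h1 : ((a : 𝓞 K) * ((p : ℕ) : 𝓞 K) + (b : 𝓞 K) * ((q : ℕ) : 𝓞 K)) ∈ v.asIdeal :=
    v.asIdeal.add_mem (v.asIdeal.mul_mem_left _ hpv) (v.asIdeal.mul_mem_left _ hqv)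
  have h2 : ((a : 𝓞 K) * ((p : ℕ) : 𝓞 K) + (b : 𝓞 K) * ((q : ℕ) : 𝓞 K)) = 1 := by
    have := congrArg (fun z : ℤ => (z : 𝓞 K)) hab
    simpa using this
  rw [h2] at h1
  exact v.isPrime.ne_top ((Ideal.eq_top_iff_one _).2 h1)

open scoped Classical in
/-- The prime numbers below a finite set of places form a finite set. -/
theorem exists_primesBelow820 (S : Finset (HeightOneSpectrum (𝓞 K))) :
    ∃ T : Finset ℕ, ∀ p : ℕ, p.Prime → ∀ v ∈ S, ((p : ℕ) : 𝓞 K) ∈ v.asIdeal → p ∈ T := by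
  refine ⟨S.image fun v => if h : ∃ q : ℕ, q.Prime ∧ ((q : ℕ) : 𝓞 K) ∈ v.asIdeal
    then h.choose else 0, ?_⟩
  intro p hp v hv hpv
  rw [Finset.mem_image]
  refine ⟨v, hv, ?_⟩
  have h : ∃ q : ℕ, q.Prime ∧ ((q : ℕ) : 𝓞 K) ∈ v.asIdeal := ⟨p, hp, hpv⟩
  rw [dif_pos h]
  exact prime_unique820 v h.choose_spec.1 hp h.choose_spec.2 hpv

end Places

section Galois

variable {K : Type} [Field K] [NumberField K]

/-- For `K/ℚ` Galois, two places over the same prime number are conjugate. -/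
theorem exists_placeImage_of_isGalois820 [IsGalois ℚ K] {p : ℕ} (hp : p.Prime)
    (w w' : HeightOneSpectrum (𝓞 K)) (hw : ((p : ℕ) : 𝓞 K) ∈ w.asIdeal)
    (hw' : ((p : ℕ) : 𝓞 K) ∈ w'.asIdeal) :
    ∃ s : K ≃ₐ[ℚ] K, PlaceImage s.toRingEquiv w w' := by
  have hmax : (Ideal.span {(p : ℤ)}).IsMaximal :=
    (Ideal.isPrime_of_prime (Ideal.prime_span_singleton_iff.mpr
      (Nat.prime_iff_prime_int.mp hp))).isMaximal (by simp [hp.ne_zero])
  have hover : ∀ u : HeightOneSpectrum (𝓞 K), ((p : ℕ) : 𝓞 K) ∈ u.asIdeal →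
      u.asIdeal.LiesOver (Ideal.span {(p : ℤ)}) := by
    intro u hu
    refine ⟨?_⟩
    apply hmax.eq_of_le
    · exact (Ideal.comap_ne_top _ u.isPrime.ne_top)
    · rw [Ideal.span_singleton_le_iff_mem, Ideal.mem_comap]
      simpa using hu
  have := hover w hw
  have := hover w' hw'
  obtain ⟨σ, hσ⟩ := Ideal.exists_smul_eq_of_isGaloisGroup (Ideal.span ({(p : ℤ)} : Set ℤ))
    w.asIdeal w'.asIdeal (K ≃ₐ[ℚ] K)
  refine ⟨σ, ?_⟩
  intro x y hxy
  have hy : y = σ • x := by
    apply RingOfIntegers.ext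
    rw [hxy]
    rfl
  rw [hy, ← hσ, Ideal.smul_mem_pointwise_smul_iff]

end Galois

section FieldF

/-- `subSL ρ` is a normal subgroup. -/
instance subSL_normal820 (ρ : Γℚ →* GL (Fin 2) (ZMod 3)) : (subSL ρ).Normal := by
  unfold subSL
  infer_instance

/-- `fieldF ρ / ℚ` is Galois. -/
theorem isGalois_fieldF820 (ρ : Γℚ →* GL (Fin 2) (ZMod 3)) : IsGalois ℚ (fieldF ρ) := by
  have : Algebra.IsAlgebraic ℚ (AlgebraicClosure ℚ) := AlgebraicClosure.isAlgebraic ℚ
  have : IsAlgClosure ℚ (AlgebraicClosure ℚ) := ⟨inferInstance, inferInstance⟩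
  have : IsGalois ℚ (AlgebraicClosure ℚ) := IsAlgClosure.isGalois ℚ _
  exact IsGalois.of_fixedField_normal_subgroup (subSL ρ)

end FieldF

end Fermat.Agent.LT.T7.H820

end
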