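import Mathlib
import Fermat.Agent.LT.T7.Spec
import Fermat.Agent.LT.T7.H820.Places

/-!
# Row LT, tower T7, LEAF T7.08 `MidStableFromUniqueC` (seat helper820, OFF-MAIN)

`midStableFromUniqueC820 : T7.MidStableFromUniqueC`, i.e. `MidUniqueC → ConjAll → MidStableC`,
VERBATIM vs `T7/Spec.lean` v1.1 (helper797@db78af04c, sha256 fe5e3dd567647ad0).

Proof.  `F = fieldF ρ` is the fixed field of the NORMAL subgroup `subSL ρ`, hence Galois over `ℚ`
(`Places.isGalois_fieldF820`; neither `LTB.Hyp` nor the degree `2` is used), and finite by the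
hypothesis `NumberField F`; so `G = Gal(F/ℚ)` is finite and acts transitively on the places over a
prime number (`Places.exists_placeImage_of_isGalois820`).  For `s ∈ G` the conjugate `π_s` of `π_F`
(`ConjC`) has the data `MidData`: the identity of `MidData` at a place `w' = s w` over `p` involves
`ρ(Frob_p)` only, and `(a, b)(π_s, s w) = (a, b)(π_F, w)` outside a finite set
(`almostAllFrob_of_conj820`).  By `MidUniqueC`, `π_s` and `π_F` agree almost everywhere, hence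
`(a, b)(π_F, s w) = (a, b)(π_F, w)` for the places over almost all primes (`stable_of_unique820`);
the union over the finite group `G` of the exceptional sets gives `ConstOnFibresQ π_F`.
-/

set_option autoImplicit false

open AutomorphicForm
open IsDedekindDomain NumberField

noncomputable section

namespace Fermat.Agent.LT.T7.H820

open Fermat.Agent.LT.H130 Fermat.Agent.LT.H556 Fermat.Agent.LT.T7

local notation "Γℚ" => (AlgebraicClosure ℚ ≃ₐ[ℚ] AlgebraicClosure ℚ)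

section Transport

variable {K : Type} [Field K] [NumberField K]

/-- **Transport of Frobenius data by an automorphism.**  If `(a, b)(π', s v) = (a, b)(π, v)`
outside a finite set of places, every identity between `a_v`, `b_v` and `ρ(Frob_p)` which holds
for `π` at the places over almost all primes holds for `π'`. -/
theorem almostAllFrob_of_conj820 (ρ : Γℚ →* GL (Fin 2) (ZMod 3))
    (Q : ℂ → ℂ → GL (Fin 2) (ZMod 3) → Prop) (s : K ≃+* K) (π π' : HeckeEigensystem K ℂ)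
    (hconj : ∃ S : Finset (HeightOneSpectrum (𝓞 K)), ∀ v : HeightOneSpectrum (𝓞 K), v ∉ S →
      ∀ v' : HeightOneSpectrum (𝓞 K), PlaceImage s v v' → π'.a v' = π.a v ∧ π'.b v' = π.b v)
    (h : AlmostAllFrob K ρ fun v g => Q (π.a v) (π.b v) g) :
    AlmostAllFrob K ρ fun v g => Q (π'.a v) (π'.b v) g := by
  obtain ⟨S₁, h₁⟩ := hconj
  obtain ⟨S₀, h₀⟩ := h
  obtain ⟨T₁, hT₁⟩ := exists_primesBelow820 S₁
  refine ⟨S₀ ∪ T₁, ?_⟩
  intro p hp hpS A hA σ hσ w' hw'
  rw [Finset.mem_union, not_or] at hpS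
  obtain ⟨w, hww'⟩ := exists_placeImage820 s w'
  have hw : ((p : ℕ) : 𝓞 K) ∈ w.asIdeal :=
    (natCast_mem_of_placeImage820 s w w' hww' p).2 hw'
  have hwS : w ∉ S₁ := fun hmem => hpS.2 (hT₁ p hp w hmem hw)
  obtain ⟨ha, hb⟩ := h₁ w hwS w' hww'
  have := h₀ p hp hpS.1 A hA σ hσ w hw
  simp only at this ⊢
  rw [ha, hb]
  exact this

/-- `MidData` is stable under conjugation. -/
theorem midData_of_conj820 (ρ : Γℚ →* GL (Fin 2) (ZMod 3))
    (Ψ : GL (Fin 2) (ZMod 3) →* GL (Fin 2) (ℤ√(-2))) (ι : ℤ√(-2) →+* ℂ)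
    (s : K ≃+* K) (π π' : HeckeEigensystem K ℂ)
    (hconj : ∃ S : Finset (HeightOneSpectrum (𝓞 K)), ∀ v : HeightOneSpectrum (𝓞 K), v ∉ S →
      ∀ v' : HeightOneSpectrum (𝓞 K), PlaceImage s v v' → π'.a v' = π.a v ∧ π'.b v' = π.b v)
    (h : MidData K ρ Ψ ι π) : MidData K ρ Ψ ι π' :=
  almostAllFrob_of_conj820 ρ
    (fun a b g => satakePow (ordQ8 (g ^ ordSL g)) a b
        = trΨ Ψ ι ((g ^ ordSL g) ^ ordQ8 (g ^ ordSL g)) ∧ b = 1) s π π' hconj h

/-- `SeedData` is stable under conjugation (not used below; for T7.04). -/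
theorem seedData_of_conj820 (ρ : Γℚ →* GL (Fin 2) (ZMod 3))
    (Ψ : GL (Fin 2) (ZMod 3) →* GL (Fin 2) (ℤ√(-2))) (ι : ℤ√(-2) →+* ℂ)
    (s : K ≃+* K) (π π' : HeckeEigensystem K ℂ)
    (hconj : ∃ S : Finset (HeightOneSpectrum (𝓞 K)), ∀ v : HeightOneSpectrum (𝓞 K), v ∉ S →
      ∀ v' : HeightOneSpectrum (𝓞 K), PlaceImage s v v' → π'.a v' = π.a v ∧ π'.b v' = π.b v)
    (h : SeedData K ρ Ψ ι π) : SeedData K ρ Ψ ι π' :=
  almostAllFrob_of_conj820 ρ
    (fun a b g => a = trΨ Ψ ι (g ^ ordQ8 g) ∧ b = 1) s π π' hconj h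

/-- **Stability from uniqueness, one automorphism.**  If the cusp forms with the data `D` are
unique up to almost everywhere equality and `D` is stable under the conjugation by `s`, then a
cusp form `π` with `D` has the same eigenvalues at `w` and at `s w`, for the places over almost
all prime numbers. -/
theorem stable_of_unique820 (C D : HeckeEigensystem K ℂ → Prop)
    (hU : ∀ π π' : HeckeEigensystem K ℂ, C π → C π' → D π → D π' → AEq π π')
    (s : K ≃+* K)
    (hD : ∀ π π' : HeckeEigensystem K ℂ,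
      (∃ S : Finset (HeightOneSpectrum (𝓞 K)), ∀ v : HeightOneSpectrum (𝓞 K), v ∉ S →
        ∀ v' : HeightOneSpectrum (𝓞 K), PlaceImage s v v' →
          π'.a v' = π.a v ∧ π'.b v' = π.b v) → D π → D π')
    (hC : ∀ π : HeckeEigensystem K ℂ, C π → ∃ π' : HeckeEigensystem K ℂ, C π' ∧
      ∃ S : Finset (HeightOneSpectrum (𝓞 K)), ∀ v : HeightOneSpectrum (𝓞 K), v ∉ S →
        ∀ v' : HeightOneSpectrum (𝓞 K), PlaceImage s v v' →
          π'.a v' = π.a v ∧ π'.b v' = π.b v)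
    (π : HeckeEigensystem K ℂ) (hπ : C π) (hdata : D π) :
    ∃ T : Finset ℕ, ∀ p : ℕ, p.Prime → p ∉ T →
      ∀ w w' : HeightOneSpectrum (𝓞 K), ((p : ℕ) : 𝓞 K) ∈ w.asIdeal → PlaceImage s w w' →
        π.a w' = π.a w ∧ π.b w' = π.b w := by
  obtain ⟨π', hπ', hconj⟩ := hC π hπ
  have hdata' : D π' := hD π π' hconj hdata
  obtain ⟨S₁, h₁⟩ := hconj
  obtain ⟨S₂, h₂⟩ := hU π π' hπ hπ' hdata hdata'
  obtain ⟨T₁, hT₁⟩ := exists_primesBelow820 S₁
  obtain ⟨T₂, hT₂⟩ := exists_primesBelow820 S₂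
  refine ⟨T₁ ∪ T₂, ?_⟩
  intro p hp hpT w w' hw hww'
  rw [Finset.mem_union, not_or] at hpT
  have hw' : ((p : ℕ) : 𝓞 K) ∈ w'.asIdeal :=
    (natCast_mem_of_placeImage820 s w w' hww' p).1 hw
  have hwS : w ∉ S₁ := fun hmem => hpT.1 (hT₁ p hp w hmem hw)
  have hwS' : w' ∉ S₂ := fun hmem => hpT.2 (hT₂ p hp w' hmem hw')
  obtain ⟨ha, hb⟩ := h₁ w hwS w' hww'
  obtain ⟨ha', hb'⟩ := h₂ w' hwS'
  exact ⟨ha'.trans ha, hb'.trans hb⟩

/-- **Stability from uniqueness, Galois case.**  For `K/ℚ` Galois: if the cusp forms with the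
data `D` are unique up to almost everywhere equality, `D` is stable under conjugation and
conjugates exist (`ConjC`), then a cusp form with `D` is constant on the fibres over `ℚ`. -/
theorem constOnFibresQ_of_unique820 [IsGalois ℚ K] (C D : HeckeEigensystem K ℂ → Prop)
    (hU : ∀ π π' : HeckeEigensystem K ℂ, C π → C π' → D π → D π' → AEq π π')
    (hD : ∀ (s : K ≃+* K) (π π' : HeckeEigensystem K ℂ),
      (∃ S : Finset (HeightOneSpectrum (𝓞 K)), ∀ v : HeightOneSpectrum (𝓞 K), v ∉ S →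
        ∀ v' : HeightOneSpectrum (𝓞 K), PlaceImage s v v' →
          π'.a v' = π.a v ∧ π'.b v' = π.b v) → D π → D π')
    (hC : ∀ (s : K ≃+* K) (π : HeckeEigensystem K ℂ), C π →
      ∃ π' : HeckeEigensystem K ℂ, C π' ∧
      ∃ S : Finset (HeightOneSpectrum (𝓞 K)), ∀ v : HeightOneSpectrum (𝓞 K), v ∉ S →
        ∀ v' : HeightOneSpectrum (𝓞 K), PlaceImage s v v' →
          π'.a v' = π.a v ∧ π'.b v' = π.b v)
    (π : HeckeEigensystem K ℂ) (hπ : C π) (hdata : D π) : ConstOnFibresQ π := by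
  classical
  have key : ∀ s : K ≃ₐ[ℚ] K, ∃ T : Finset ℕ, ∀ p : ℕ, p.Prime → p ∉ T →
      ∀ w w' : HeightOneSpectrum (𝓞 K), ((p : ℕ) : 𝓞 K) ∈ w.asIdeal →
        PlaceImage s.toRingEquiv w w' → π.a w' = π.a w ∧ π.b w' = π.b w :=
    fun s => stable_of_unique820 C D hU s.toRingEquiv (hD s.toRingEquiv) (hC s.toRingEquiv)
      π hπ hdata
  choose T hT using key
  refine ⟨Finset.univ.biUnion T, ?_⟩
  intro p hp hpT w w' hw hw'
  obtain ⟨s, hs⟩ := exists_placeImage_of_isGalois820 hp w w' hw hw'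
  have hps : p ∉ T s := fun hmem => hpT (Finset.mem_biUnion.2 ⟨s, Finset.mem_univ s, hmem⟩)
  obtain ⟨ha, hb⟩ := hT s p hp hps w w' hw hs
  exact ⟨ha.symm, hb.symm⟩

end Transport

/-- **LEAF T7.08** `MidUniqueC + ConjAll ⇒ MidStableC`. -/
theorem midStableFromUniqueC820 : MidStableFromUniqueC := by
  intro hMU hConj ρ Ψ ι hyp nfF πF hπF hdata
  have : IsGalois ℚ (fieldF ρ) := isGalois_fieldF820 ρ
  exact constOnFibresQ_of_unique820 (A0.IsCuspAdelicSph0 (fieldF ρ)) (MidData (fieldF ρ) ρ Ψ ι)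
    (fun π π' hπ hπ' hd hd' => hMU ρ Ψ ι hyp nfF π π' hπ hπ' hd hd')
    (fun s π π' hconj hd => midData_of_conj820 ρ Ψ ι s π π' hconj hd)
    (fun s π hπ => hConj (fieldF ρ) s π hπ)
    πF hπF hdata

end Fermat.Agent.LT.T7.H820

end
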