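import Mathlib
import Fermat.Agent.LT.T7.H193.ProjSpec
import Fermat.Agent.LT.T7.H547.FinAvgCusp
import Fermat.Agent.LT.T7.H865.TorAvgW
import Fermat.Agent.LT.T7.H587.TorAvgOrth

/-!
# Row LT, tower T7, node T7.L2Q.1 `SupplyQC`, leaf C3a `ProjQC962 w1` (registry row 2261):
# the orthogonal projection on the invariant cusp functions, FOR AN ARBITRARY `K_∞`-TYPE `τ`
# (helper820) -- GENERIC PART

OFF-MAIN.  No hole, nothing assumed.  ADDITIVE (new names only, all suffixed `820`).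
Vocabulary: `T7/H193/ProjSpec.lean` (helper193@812840e55, sha256 977a85e3: `finAvg`, `torAvg`,
`IsFinData`, `IsTorusData`, `TranslInvC`, `FinDataC`), byte-identical copy.  Type-agnostic lemmas
of the proved trivial-type leaves are REUSED (byte-identical copies):
`T7/H547/FinAvgCusp.lean` (helper547), `T7/H865/TorAvgW.lean` (helper865),
`T7/H587/TorAvgOrth.lean` (helper587).

    exists_projT820 : T1.T1Out K → TranslInvC K → FinDataC K → ∀ τ R, IsFrame5 R →
      ∀ 𝔑 𝔑₀, 𝔑 ≠ ⊥ → 𝔑 ≤ 𝔑₀ → ∀ l o a D, IsTorusData 𝔑₀ R.r a D → MeanRay820 R.r a D →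
      ∀ ψ, T5.IsCuspFn 𝔑 τ R.r ψ →
        ∃ ψ₁, IsWFnT820 τ 𝔑₀ R.r l o ψ₁ ∧
          ∀ χ, IsWFnT820 τ 𝔑₀ R.r l o χ → T5.innerD R.μ R.F (fun x => ψ x - ψ₁ x) χ = 0

`ψ₁ = torAvg a D (finAvg Rep ψ)`, as in `H193.exists_proj193`.  The elements over which one
averages are finite adeles (`Rep`) or central (`a t`): they commute with `K_∞`, so the averages
preserve the type `τ` (NO hypothesis on `τ`).  The only place where the trivial type was used by
the cut of helper193 is the field `mean` of `IsTorusData` (invariance under the units needs the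
trivial type); here it is replaced by the hypothesis `MeanRay820` (the mean over `D` of every
`r`-invariant function is translation invariant), which holds when the lattice of periods is
generated by `log r` alone (`K = ℚ`: `ProjQ.lean`).
-/

set_option autoImplicit false
set_option linter.unusedSectionVars false
set_option linter.style.haveILetI false

open IsDedekindDomain NumberField MeasureTheory
open scoped ComplexConjugate

noncomputable section

namespace Fermat.Agent.LT.T7.H820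

open Fermat.Agent.LT.H556 Fermat.Agent.LT.H556.A0 Fermat.Agent.LT Fermat.Agent.LT.T7
open Fermat.Agent.LT.T7.H193

attribute [local instance] Fermat.Agent.LT.T5.instMeasurableSpaceG

variable {K : Type} [Field K] [NumberField K]

/-! ## 1. Vocabulary -/

/-- The INVARIANT cusp functions of type `τ`: cusp functions of level `𝔫` and type `τ`, invariant
under the positive scalars at every infinite place and under the Iwahori subgroups along the
orbit (`T7.IsWFn` is the case `τ = 1`, `L2Q.IsWFnQ n` the case `K = ℚ`, `τ = n.type`, `l = 1`). -/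
structure IsWFnT820 (τ : G K → ℂ) (𝔫 : Ideal (𝓞 K)) (r : G K) (l : ℕ)
    (o : ℕ → HeightOneSpectrum (𝓞 K)) (ψ : G K → ℂ) : Prop where
  cusp : T5.IsCuspFn 𝔫 τ r ψ
  arch_scalar : ∀ (w : InfinitePlace K) (z : G K), IsArchPosScalar w z →
    ∀ g : G K, ψ (g * z) = ψ g
  iw : IsIwInv l o ψ

/-- The mean over `D` of every function which is right invariant under `r` is invariant under
the translations of the parameter. -/
def MeanRay820 (r : G K) (a : (InfinitePlace K → ℝ) → G K) (D : Set (InfinitePlace K → ℝ)) :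
    Prop :=
  ∀ e : G K → ℂ, (∀ g : G K, e (g * r) = e g) →
    ∀ (g : G K) (s : InfinitePlace K → ℝ),
      ∫ t in D, e (g * a (t + s)) = ∫ t in D, e (g * a t)

/-! ## 2. The finite average -/

/-- **FIN-AVG-CUSP for the type `τ`.**  The finite average of a cusp function of level `𝔑` and
type `τ` is a cusp function of level `𝔑₀` and type `τ`, Iwahori-invariant along the orbit. -/
theorem finAvgCusp_T820 (hT1 : T1.T1Out K) (τ : G K → ℂ) {𝔑 𝔑₀ : Ideal (𝓞 K)} {l : ℕ}
    {o : ℕ → HeightOneSpectrum (𝓞 K)} {Rep : Finset (G K)} (hRep : IsFinData 𝔑 𝔑₀ l o Rep)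
    {r : G K} (hr : T5.IsRayGen r) {ψ : G K → ℂ} (hψ : T5.IsCuspFn 𝔑 τ r ψ) :
    T5.IsCuspFn 𝔑₀ τ r (finAvg Rep ψ) ∧ IsIwInv l o (finAvg Rep ψ) := by
  refine ⟨⟨H547.continuous_finAvg547 Rep hψ.cont, H547.bdd_finAvg547 Rep hψ.bdd,
    ⟨?_, ?_, ?_, ?_⟩,
    H547.cuspidal_finAvg547 hT1.addFundDom Rep hψ.cont hψ.bdd hψ.cuspidal⟩, ?_⟩
  · -- left invariance under `GL₂(K)`
    intro γ g
    rw [H547.finAvg_apply547, H547.finAvg_apply547]
    congr 1
    refine Finset.sum_congr rfl fun h _ => ?_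
    rw [mul_assoc]
    exact hψ.aut.left_inv γ (g * h)
  · -- right invariance under `U(𝔑₀)`
    intro u hu g
    rw [H547.finAvg_apply547, H547.finAvg_apply547]
    congr 1
    exact hRep.perm_level ψ hψ.aut.level_inv u hu g
  · -- the `K_∞`-type
    intro w k hk g
    rw [H547.finAvg_apply547, H547.finAvg_apply547, mul_left_comm]
    congr 1
    rw [Finset.mul_sum]
    refine Finset.sum_congr rfl fun h hh => ?_
    rw [mul_assoc, H547.rep_commute_inf547 hRep hh hk.1, ← mul_assoc]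
    exact hψ.aut.arch_compact w k hk (g * h)
  · -- the ray
    intro g
    rw [H547.finAvg_apply547, H547.finAvg_apply547]
    congr 1
    refine Finset.sum_congr rfl fun h _ => ?_
    rw [mul_assoc, T5.H599.ray_commute599 hr h, ← mul_assoc]
    exact hψ.aut.ray (g * h)
  · -- Iwahori invariance along the orbit
    rw [isIwInv_iff]
    intro h₀ hh₀ x
    rw [H547.finAvg_apply547, H547.finAvg_apply547]
    congr 1
    exact hRep.perm_iw ψ hψ.aut.level_inv h₀ hh₀ x

/-- `χ` is invariant under right translation by the members of `Rep`. -/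
theorem chi_rep_inv820 {τ : G K → ℂ} {𝔑 𝔑₀ : Ideal (𝓞 K)} {l : ℕ}
    {o : ℕ → HeightOneSpectrum (𝓞 K)} {Rep : Finset (G K)} (hRep : IsFinData 𝔑 𝔑₀ l o Rep)
    {r : G K} {χ : G K → ℂ} (hχ : T5.IsCuspFn 𝔑₀ τ r χ) (hiw : IsIwInv l o χ) {h : G K}
    (hh : h ∈ Rep) (x : G K) : χ (x * h) = χ x := by
  obtain ⟨i, u, hi, hu, rfl⟩ := hRep.mem h hh
  rw [← mul_assoc, hχ.aut.level_inv u hu, (isIwInv_iff.mp hiw) i hi]

/-- **FIN-AVG-ORTH for the type `τ`.**  `ψ - P_f ψ` is orthogonal to the cusp functions of level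
`𝔑₀` (any type) which are Iwahori-invariant along the orbit. -/
theorem finAvgOrth_T820 (hT1 : T1.T1Out K) (hTr : TranslInvC K) {τ τ' : G K → ℂ} (R : Frame5 K)
    (hR : IsFrame5 R) {𝔑 𝔑₀ : Ideal (𝓞 K)} {l : ℕ} {o : ℕ → HeightOneSpectrum (𝓞 K)}
    {Rep : Finset (G K)} (hRep : IsFinData 𝔑 𝔑₀ l o Rep) {ψ : G K → ℂ}
    (hψ : T5.IsCuspFn 𝔑 τ R.r ψ) {χ : G K → ℂ} (hχ : T5.IsCuspFn 𝔑₀ τ' R.r χ)
    (hiw : IsIwInv l o χ) :
    T5.innerD R.μ R.F (fun x => ψ x - finAvg Rep ψ x) χ = 0 := by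
  have hF : R.μ R.F < ⊤ := hR.frame.finite
  have key : ∀ h ∈ Rep, ∫ x in R.F, ψ (x * h) * conj (χ x) ∂(R.μ)
      = ∫ x in R.F, ψ x * conj (χ x) ∂(R.μ) := by
    intro h hh
    have h1 := hTr hT1.adNorm R hR (fun x => ψ x * conj (χ x))
      (fun γ x => by
        show ψ (T5.ratG γ * x) * conj (χ (T5.ratG γ * x)) = ψ x * conj (χ x)
        rw [hψ.aut.left_inv, hχ.aut.left_inv])
      (fun x => by
        show ψ (x * R.r) * conj (χ (x * R.r)) = ψ x * conj (χ x)
        rw [hψ.aut.ray, hχ.aut.ray]) h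
    rw [← h1]
    refine integral_congr_ae (Filter.Eventually.of_forall fun x => ?_)
    show ψ (x * h) * conj (χ x) = ψ (x * h) * conj (χ (x * h))
    rw [chi_rep_inv820 hRep hχ hiw hh x]
  have hcard : ((Rep.card : ℂ)) ≠ 0 := by
    exact_mod_cast (Finset.card_pos.mpr hRep.nonempty).ne'
  have hint0 : IntegrableOn (fun x => ψ x * conj (χ x)) R.F R.μ :=
    integrableOn_mul_conj193 hF hψ.cont hχ.cont hψ.bdd hχ.bdd
  have hinth : ∀ h ∈ Rep, IntegrableOn (fun x => ψ (x * h) * conj (χ x)) R.F R.μ := by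
    intro h _
    refine integrableOn_mul_conj193 hF (e := fun x => ψ (x * h))
      (hψ.cont.comp (continuous_mul_const h)) hχ.cont ?_ hχ.bdd
    obtain ⟨C, hC⟩ := hψ.bdd
    exact ⟨C, fun g => hC _⟩
  have hsum : IntegrableOn (fun x => (Rep.card : ℂ)⁻¹ * ∑ h ∈ Rep, ψ (x * h) * conj (χ x))
      R.F R.μ :=
    (integrable_finsetSum Rep hinth).const_mul _
  have e : (fun x => (ψ x - finAvg Rep ψ x) * conj (χ x))
      = fun x => ψ x * conj (χ x)
          - (Rep.card : ℂ)⁻¹ * ∑ h ∈ Rep, ψ (x * h) * conj (χ x) := by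
    funext x
    unfold finAvg
    rw [sub_mul, mul_assoc, Finset.sum_mul]
  unfold T5.innerD
  rw [e, integral_sub hint0 hsum, integral_const_mul, integral_finsetSum Rep hinth,
    Finset.sum_congr rfl key, Finset.sum_const, nsmul_eq_mul, ← mul_assoc,
    inv_mul_cancel₀ hcard, one_mul, sub_self]

/-! ## 3. The archimedean mean -/

/-- **TOR-AVG-W for the type `τ`.**  The archimedean mean of a cusp function of level `𝔑₀` and
type `τ` which is Iwahori-invariant along the orbit is an invariant cusp function of type `τ`. -/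
theorem torAvgW_T820 (hT1 : T1.T1Out K) (τ : G K → ℂ) {𝔑₀ : Ideal (𝓞 K)} {r : G K}
    {a : (InfinitePlace K → ℝ) → G K} {D : Set (InfinitePlace K → ℝ)}
    (hD : IsTorusData 𝔑₀ r a D) (hM : MeanRay820 r a D) {l : ℕ}
    {o : ℕ → HeightOneSpectrum (𝓞 K)} {ψ : G K → ℂ} (hψ : T5.IsCuspFn 𝔑₀ τ r ψ)
    (hiw : IsIwInv l o ψ) : IsWFnT820 τ 𝔑₀ r l o (torAvg a D ψ) := by
  have hsc : SecondCountableTopology (G K) := hT1.locComp.2.2.2
  refine ⟨⟨H865.torAvg_continuous865 hsc hD hψ.cont hψ.bdd, H865.torAvg_bdd865 hD hψ.bdd,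
    ⟨?_, ?_, ?_, ?_⟩, H865.torAvg_cuspidal865 hT1 hD hψ.cont hψ.bdd hψ.cuspidal⟩, ?_, ?_⟩
  · -- left invariance
    intro γ g
    refine H865.torAvg_congr865 fun t => ?_
    rw [mul_assoc]
    exact hψ.aut.left_inv γ (g * a t)
  · -- level
    intro u hu g
    refine H865.torAvg_congr865 fun t => ?_
    rw [H865.mul_comm_a865 hD]
    exact hψ.aut.level_inv u hu (g * a t)
  · -- compact groups at infinity
    intro w k hk g
    show (((volume D).toReal : ℝ) : ℂ)⁻¹ * ∫ t in D, ψ (g * k * a t)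
      = τ k * ((((volume D).toReal : ℝ) : ℂ)⁻¹ * ∫ t in D, ψ (g * a t))
    rw [mul_left_comm]
    congr 1
    rw [← integral_const_mul (τ k) (fun t => ψ (g * a t))]
    refine integral_congr_ae (Filter.Eventually.of_forall fun t => ?_)
    show ψ (g * k * a t) = τ k * ψ (g * a t)
    rw [H865.mul_comm_a865 hD]
    exact hψ.aut.arch_compact w k hk (g * a t)
  · -- ray
    intro g
    refine H865.torAvg_congr865 fun t => ?_
    rw [H865.mul_comm_a865 hD]
    exact hψ.aut.ray (g * a t)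
  · -- positive scalars at one infinite place
    intro w z hz g
    obtain ⟨s, rfl⟩ := H865.posScalar_eq865 hD hz
    show (((volume D).toReal : ℝ) : ℂ)⁻¹ * ∫ t in D, ψ (g * a s * a t)
      = (((volume D).toReal : ℝ) : ℂ)⁻¹ * ∫ t in D, ψ (g * a t)
    congr 1
    have h := hM ψ hψ.aut.ray g s
    rw [← h]
    refine integral_congr_ae (Filter.Eventually.of_forall fun t => ?_)
    show ψ (g * a s * a t) = ψ (g * a (t + s))
    rw [add_comm, hD.mul, mul_assoc]
  · -- Iwahori along the orbit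
    intro h h1 h2 h3 x
    refine H865.torAvg_congr865 fun t => ?_
    rw [H865.mul_comm_a865 hD]
    exact hiw h h1 h2 h3 (x * a t)

/-- **TOR-AVG-ORTH for the type `τ`.**  `ψ - P_∞ ψ` is orthogonal to the cusp functions (any
type) which are invariant under the positive scalars at infinity. -/
theorem torAvgOrth_T820 (hT1 : T1.T1Out K) (hTI : TranslInvC K) {τ τ' : G K → ℂ} (R : Frame5 K)
    (hR : IsFrame5 R) {𝔑₀ : Ideal (𝓞 K)} {a : (InfinitePlace K → ℝ) → G K}
    {D : Set (InfinitePlace K → ℝ)} (hD : IsTorusData 𝔑₀ R.r a D) {ψ : G K → ℂ}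
    (hψ : T5.IsCuspFn 𝔑₀ τ R.r ψ) {χ : G K → ℂ} (hχ : T5.IsCuspFn 𝔑₀ τ' R.r χ)
    (hχs : ∀ (w : InfinitePlace K) (z : G K), IsArchPosScalar w z →
      ∀ g : G K, χ (g * z) = χ g) :
    T5.innerD R.μ R.F (fun x => ψ x - torAvg a D ψ x) χ = 0 := by
  have hTI' := hTI hT1.adNorm R hR
  have : BorelSpace (G K) := ⟨rfl⟩
  have hFfin : R.μ R.F < ⊤ := hR.frame.finite
  have hDfin : volume D < ⊤ := hD.bdd.measure_lt_top
  have : IsFiniteMeasure (R.μ.restrict R.F) := ⟨by rwa [Measure.restrict_apply_univ]⟩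
  have : IsFiniteMeasure ((volume : Measure (InfinitePlace K → ℝ)).restrict D) :=
    ⟨by rwa [Measure.restrict_apply_univ]⟩
  obtain ⟨Cψ, hCψ⟩ := hψ.bdd
  obtain ⟨Cχ, hCχ⟩ := hχ.bdd
  -- the constant
  set c : ℂ := (((volume D).toReal : ℝ) : ℂ) with hc
  have hcpos : 0 < (volume D).toReal := ENNReal.toReal_pos hD.pos.ne' hDfin.ne
  have hc0 : c ≠ 0 := by
    rw [hc]
    exact_mod_cast hcpos.ne'
  -- the function `Φ = ψ conj χ`
  set Φ : G K → ℂ := fun x => ψ x * conj (χ x) with hΦ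
  have hΦleft : ∀ (γ : GL (Fin 2) K) (x : G K), Φ (T5.ratG γ * x) = Φ x := by
    intro γ x
    simp only [hΦ]
    rw [hψ.aut.left_inv, hχ.aut.left_inv]
  have hΦray : ∀ x : G K, Φ (x * R.r) = Φ x := by
    intro x
    simp only [hΦ]
    rw [hψ.aut.ray, hχ.aut.ray]
  have hΦint : IntegrableOn Φ R.F R.μ :=
    integrableOn_mul_conj193 hFfin hψ.cont hχ.cont ⟨Cψ, hCψ⟩ ⟨Cχ, hCχ⟩
  -- the integrand on the product
  set f : G K → (InfinitePlace K → ℝ) → ℂ := fun x t => ψ (x * a t) * conj (χ x) with hf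
  have hfcont : Continuous (Function.uncurry f) := by
    have h1 : Continuous fun p : G K × (InfinitePlace K → ℝ) => p.1 * a p.2 :=
      continuous_fst.mul (hD.cont.comp continuous_snd)
    exact (hψ.cont.comp h1).mul (Complex.continuous_conj.comp (hχ.cont.comp continuous_fst))
  have hfint : Integrable (Function.uncurry f)
      ((R.μ.restrict R.F).prod ((volume : Measure (InfinitePlace K → ℝ)).restrict D)) := by
    refine Integrable.of_bound (C := Cψ * Cχ) hfcont.aestronglyMeasurable ?_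
    refine Filter.Eventually.of_forall fun p => ?_
    simp only [Function.uncurry, hf]
    rw [norm_mul, RCLike.norm_conj]
    exact mul_le_mul (hCψ _) (hCχ _) (norm_nonneg _) ((norm_nonneg _).trans (hCψ p.1))
  -- invariance of `χ`
  have hχa : ∀ (t : InfinitePlace K → ℝ) (x : G K), χ (x * a t) = χ x :=
    fun t x => H587.inv_a587 hD.mul hD.inf hD.fin hχs t x
  -- the inner integral over `F`
  have hinner : ∀ t : InfinitePlace K → ℝ,
      ∫ x in R.F, f x t ∂(R.μ) = ∫ x in R.F, Φ x ∂(R.μ) := by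
    intro t
    rw [← hTI' Φ hΦleft hΦray (a t)]
    refine integral_congr_ae (Filter.Eventually.of_forall fun x => ?_)
    simp only [hf, hΦ]
    rw [hχa t x]
  -- Fubini
  have hswap : ∫ x in R.F, (∫ t in D, f x t) ∂(R.μ) = c * ∫ x in R.F, Φ x ∂(R.μ) := by
    rw [integral_integral_swap hfint]
    simp only [hinner]
    rw [integral_const, hc]
    simp [Measure.real, Complex.real_smul]
  -- integrability of the averaged term
  have hgint : IntegrableOn (fun x => ∫ t in D, f x t) R.F R.μ := hfint.integral_prod_left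
  -- the integrand of the inner product
  have hpt : ∀ x : G K, (ψ x - torAvg a D ψ x) * conj (χ x)
      = Φ x - c⁻¹ * ∫ t in D, f x t := by
    intro x
    simp only [torAvg, hf, hΦ]
    rw [integral_mul_const]
    ring
  unfold T5.innerD
  rw [integral_congr_ae (Filter.Eventually.of_forall hpt),
    integral_sub hΦint (hgint.const_mul c⁻¹), integral_const_mul, hswap, ← mul_assoc,
    inv_mul_cancel₀ hc0, one_mul, sub_self]

/-! ## 4. The top -/

/-- **THE ORTHOGONAL PROJECTION ON THE INVARIANT CUSP FUNCTIONS OF TYPE `τ`.** -/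
theorem exists_projT820 (hT1 : T1.T1Out K) (hTr : TranslInvC K) (hFin : FinDataC K)
    (τ : G K → ℂ) (R : Frame5 K) (hR : IsFrame5 R) (𝔑 𝔑₀ : Ideal (𝓞 K)) (h𝔑 : 𝔑 ≠ ⊥)
    (hle : 𝔑 ≤ 𝔑₀) (l : ℕ) (o : ℕ → HeightOneSpectrum (𝓞 K))
    (a : (InfinitePlace K → ℝ) → G K) (D : Set (InfinitePlace K → ℝ))
    (hD : IsTorusData 𝔑₀ R.r a D) (hM : MeanRay820 R.r a D) (ψ : G K → ℂ)
    (hψ : T5.IsCuspFn 𝔑 τ R.r ψ) :
    ∃ ψ₁ : G K → ℂ, IsWFnT820 τ 𝔑₀ R.r l o ψ₁ ∧
      ∀ χ : G K → ℂ, IsWFnT820 τ 𝔑₀ R.r l o χ →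
        T5.innerD R.μ R.F (fun x => ψ x - ψ₁ x) χ = 0 := by
  obtain ⟨Rep, hRep⟩ := hFin 𝔑 𝔑₀ h𝔑 hle l o
  obtain ⟨hc, hiw⟩ := finAvgCusp_T820 hT1 τ hRep hR.ray hψ
  have hW := torAvgW_T820 hT1 τ hD hM hc hiw
  refine ⟨torAvg a D (finAvg Rep ψ), hW, fun χ hχ => ?_⟩
  have e1 := finAvgOrth_T820 hT1 hTr R hR hRep hψ hχ.cusp hχ.iw
  have e2 := torAvgOrth_T820 hT1 hTr R hR hD hc hχ.cusp hχ.arch_scalar
  have hsplit : (fun x => ψ x - torAvg a D (finAvg Rep ψ) x)
      = fun x => (ψ x - finAvg Rep ψ x) + (finAvg Rep ψ x - torAvg a D (finAvg Rep ψ) x) := by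
    funext x
    ring
  have c1 : Continuous fun x => ψ x - finAvg Rep ψ x := hψ.cont.sub hc.cont
  have c2 : Continuous fun x => finAvg Rep ψ x - torAvg a D (finAvg Rep ψ) x :=
    hc.cont.sub hW.cusp.cont
  rw [hsplit, innerD_add193 hR.frame.finite c1 c2 hχ.cusp.cont (bdd_sub193 hψ.bdd hc.bdd)
    (bdd_sub193 hc.bdd hW.cusp.bdd) hχ.cusp.bdd, e1, e2, add_zero]

end Fermat.Agent.LT.T7.H820

end
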