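import Mathlib
import Fermat.Agent.LT.T1.Closed
import Fermat.Agent.LT.T7.H962.SupplyQSpec
import Fermat.Agent.LT.T7.H820.ProjQGen
import Fermat.Agent.LT.T7.H453.TranslInv
import Fermat.Agent.LT.T7.H543.HGroup
import Fermat.Agent.LT.T7.H981.FinIndex
import Fermat.Agent.LT.T7.H454.FinDataAsm
import Fermat.Agent.LT.T7.H195.PosScal
import Fermat.Agent.LT.T7.H563.TorusMean

/-!
# Row LT, tower T7, node T7.L2Q.1 `SupplyQC`, leaf C3a `ProjQC962 w1` (registry row 2261)
# -- CLOSED, UNCONDITIONAL (helper820)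

OFF-MAIN.  No hole, nothing assumed.  ADDITIVE (new names only, all suffixed `820`).
Spec: `T7/H962/SupplyQSpec.lean` (helper962@39bd27364, sha256 8375a60b), byte-identical copy.

    projQC_820 (n : QWt) : H962.ProjQC962 n          (BOTH types)
    projQC_w1_820 : H962.ProjQC962 QWt.w1            (the leaf, VERBATIM)

Proof.  `ProjQGen.lean` (`exists_projT820`: the averaging of helper193's cut for an arbitrary
`K_∞`-type `τ`) with
* `T1.t1Out ℚ` (`T1/Closed.lean`, closure of helper40@9a1249af2),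
* `TranslInvC` = `H453.translInvC453`, `FinDataC` = `H454.finDataAsmC454` + `H543.hGroupC543`
  + `H981.finIndexC981` (type-agnostic leaves of helper193's cut, byte-identical copies),
* the torus data over `ℚ` (`torusData_of_subsingleton820`): `a` = the positive scalars
  (`H195.posScalC195`), the lattice of periods is generated by the constant vector `log t₀`
  ALONE (there is one infinite place, no unit is needed), `D` from `H563.torusMeanC563`; the mean
  is translation invariant for EVERY `r`-invariant function, whatever its `K_∞`-type.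
-/

set_option autoImplicit false
set_option linter.unusedSectionVars false
set_option linter.style.haveILetI false

open IsDedekindDomain NumberField MeasureTheory
open scoped ComplexConjugate

noncomputable section

namespace Fermat.Agent.LT.T7.H820

open Fermat.Agent.LT.H556 Fermat.Agent.LT.H556.A0 Fermat.Agent.LT Fermat.Agent.LT.T7
open Fermat.Agent.LT.T7.H193 Fermat.Agent.LT.T7.L2Q

attribute [local instance] Fermat.Agent.LT.T5.instMeasurableSpaceG

/-- **The torus data of a field with ONE infinite place** (`ℚ`, imaginary quadratic fields): the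
lattice of periods is generated by `log r`; the mean over the fundamental domain is translation
invariant for every function which is right invariant under `r`. -/
theorem torusData_of_subsingleton820 (K : Type) [Field K] [NumberField K]
    [Subsingleton (InfinitePlace K)] (hPos : PosScalC K) (hMean : TorusMeanC)
    (𝔑 : Ideal (𝓞 K)) (r : G K) (hr : T5.IsRayGen r) :
    ∃ (a : (InfinitePlace K → ℝ) → G K) (D : Set (InfinitePlace K → ℝ)),
      IsTorusData 𝔑 r a D ∧ MeanRay820 r a D := by
  classical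
  obtain ⟨a, ha_cont, ha_mul, ha_inf, ha_fin, ha_central⟩ := hPos
  obtain ⟨hrfin, t₀, ht₀pos, ht₀pow, hrinf⟩ := hr
  have hc : Real.log t₀ ≠ 0 := by
    intro h0
    rcases Real.log_eq_zero.mp h0 with h | h | h
    · linarith
    · rw [h, one_pow] at ht₀pow
      norm_num at ht₀pow
    · linarith
  have hu : ∀ _ : InfinitePlace K, IsUnit (Real.log t₀) := fun _ => IsUnit.mk0 _ hc
  obtain ⟨b, hb⟩ : ∃ b : Module.Basis (InfinitePlace K) ℝ (InfinitePlace K → ℝ),
      ∀ i : InfinitePlace K, b i = fun _ => Real.log t₀ := by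
    refine ⟨(Pi.basisFun ℝ (InfinitePlace K)).isUnitSMul hu, fun i => ?_⟩
    rw [Module.Basis.isUnitSMul_apply]
    funext w
    rw [Subsingleton.elim w i]
    simp
  obtain ⟨D, hDm, hDb, hDp, hDmean⟩ := hMean (InfinitePlace K) b
  have hr' : a (fun _ => Real.log t₀) = r := by
    apply H865.g_ext865
    · intro w
      rw [ha_inf, hrinf, Real.exp_log ht₀pos]
    · intro v
      rw [show finComp v (a fun _ => Real.log t₀) = 1 from ha_fin _ v,
        show finComp v r = 1 from hrfin v]
  have hM : MeanRay820 r a D := by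
    intro e he g s
    refine hDmean (fun t => e (g * a t)) (fun i t => ?_) s
    show e (g * a (t + b i)) = e (g * a t)
    rw [ha_mul, ← mul_assoc, hb i, hr']
    exact he _
  exact ⟨a, D, ⟨ha_cont, ha_mul, ha_inf, ha_fin, ha_central, hDm, hDb, hDp,
    fun e he _ g s => hM e he.ray g s⟩, hM⟩

/-- The invariant cusp functions of `L2Q` are those of `ProjQGen.lean` for `K = ℚ`, `l = 1`. -/
theorem isWFnQ_iff820 (n : QWt) (𝔫 : Ideal (𝓞 ℚ)) (r : G ℚ) (u : HeightOneSpectrum (𝓞 ℚ))
    (ψ : G ℚ → ℂ) : IsWFnQ n 𝔫 r u ψ ↔ IsWFnT820 n.type 𝔫 r 1 (fun _ => u) ψ :=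
  ⟨fun h => ⟨h.cusp, h.arch_scalar, h.iw⟩, fun h => ⟨h.cusp, h.arch_scalar, h.iw⟩⟩

/-- **`ProjQC962 n` for BOTH types.** -/
theorem projQC_820 (n : QWt) : H962.ProjQC962 n := by
  intro R hR 𝔫₀ 𝔫 h𝔫 hle u _ ψ hψ
  obtain ⟨a, D, hD, hM⟩ := torusData_of_subsingleton820 ℚ (H195.posScalC195 ℚ)
    H563.torusMeanC563 𝔫₀ R.r hR.ray
  obtain ⟨ψ₁, h1, h2⟩ := exists_projT820 (T1.t1Out ℚ) (H453.translInvC453 ℚ)
    (H454.finDataAsmC454 ℚ (H543.hGroupC543 ℚ) (H981.finIndexC981 ℚ)) n.type R hR 𝔫 𝔫₀ h𝔫 hle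
    1 (fun _ => u) a D hD hM ψ hψ
  exact ⟨ψ₁, (isWFnQ_iff820 n 𝔫₀ R.r u ψ₁).2 h1,
    fun χ hχ => h2 χ ((isWFnQ_iff820 n 𝔫₀ R.r u χ).1 hχ)⟩

/-- **LEAF T7.L2Q.1.C3a, type `w1` (registry row 2261), CLOSED.** -/
theorem projQC_w1_820 : H962.ProjQC962 QWt.w1 := projQC_820 QWt.w1

/-- The frozen Prop, VERBATIM. -/
example : Fermat.Agent.LT.T7.H962.ProjQC962 Fermat.Agent.LT.T7.L2Q.QWt.w1 := projQC_w1_820

end Fermat.Agent.LT.T7.H820

end
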